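import Fermat.Agent.S07
import Fermat.Prelude.Def_FLTPrelim_FreyPackage
import Fermat.Prelude.Def_FLTPrelim_GaloisRep
import Fermat.Prelude.Def_FLTPrelim_Modularity

/-!
# Reduction of S03 (no Frey package) to S04, S09, S45 and S07

`Fermat.Agent.S03Reduction.no_freyPackage_of_inputs` : the statements S04 (the Frey curve is
modular), S09 (its mod-`p` representation is irreducible) and S45 (modular + irreducible gives a
nonzero weight-2 cusp form of level `Γ₀(2)`), passed as hypotheses, contradict S07 (proved in
`Fermat.Agent.S07`).  No frozen constant is cited.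
-/

set_option autoImplicit false
open WeierstrassCurve WeierstrassCurve.Affine WeierstrassCurve.Affine.Point
open CuspForm ModularFormClass UpperHalfPlane

namespace Fermat.Agent.S03Reduction

/-- S03 for a single Frey package from the S04, S09, S45 conclusions for that package. -/
theorem false_of_inputs (P : FreyPackage)
    (h04 : P.freyCurve.IsModular)
    (h09 : GaloisRepIsIrreducible (K := AlgebraicClosure ℚ) ℚ P.freyCurve P.p)
    (h45 : P.freyCurve.IsModular →
      GaloisRepIsIrreducible (K := AlgebraicClosure ℚ) ℚ P.freyCurve P.p →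
      ∃ f : CuspForm (CongruenceSubgroup.Gamma0 2) 2, f ≠ 0) : False := by
  obtain ⟨f, hf⟩ := h45 h04 h09
  exact hf (Fermat.Agent.S07.result f)

/-- S03 from S04, S09, S45 (as hypotheses) and S07. -/
theorem no_freyPackage_of_inputs
    (h04 : ∀ P : FreyPackage, P.freyCurve.IsModular)
    (h09 : ∀ P : FreyPackage,
      GaloisRepIsIrreducible (K := AlgebraicClosure ℚ) ℚ P.freyCurve P.p)
    (h45 : ∀ P : FreyPackage, P.freyCurve.IsModular →
      GaloisRepIsIrreducible (K := AlgebraicClosure ℚ) ℚ P.freyCurve P.p →
      ∃ f : CuspForm (CongruenceSubgroup.Gamma0 2) 2, f ≠ 0)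
    (P : FreyPackage) : False :=
  false_of_inputs P (h04 P) (h09 P) (h45 P)

end Fermat.Agent.S03Reduction
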